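/-
GATE-E / GE9-ETA-ADJ3 (helper37), file 1: **the transfer `Γ₀(N q q) → Γ₀(N q)`** and its adjunction.

For a prime `q` the index of `Γ₀(N q q)` in `Γ₀(N q)` is `q` (helper65's `trSys0`, representatives
`[1 0; N q j 1]`, `j ∈ ZMod q`).

* `cores2Sys N q`, `cores2 N q A`, `cores2P N q A` : the transfer on `Hom(Γ₀(·), A)` and on the
  parabolic lattices;
* `cores2_comp_res` : `cores2 ∘ res = q`;
* `lamB_resP_cores2P` : **inner adjunction** `⟨res x, z⟩_{N q q} = ⟨x, cores2 z⟩_{N q}` for the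
  unimodular cup forms (helper14's `lamForm_res_cores`).
-/
import Fermat.Agent.GM.Asm.DAsm
import Fermat.Agent.GB.B5.Betti.TrSys

set_option autoImplicit false
set_option linter.unusedSectionVars false

open scoped MatrixGroups
open CongruenceSubgroup Matrix Matrix.SpecialLinearGroup ModularCurve.Period
open Fermat.Agent.S16_helper49 Fermat.Agent.GM.Amalgam Fermat.Agent.GM.B Fermat.Agent.GM.Bridge
  Fermat.Agent.GM.PD Fermat.Agent.GJ.J2.Lat Fermat.Agent.GM.Asm
open Fermat.Agent.GB.B5.Betti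

namespace Fermat.Agent.GE9.Eta.Adj3

attribute [local instance] quotFintype quotDecEq

section Sys

variable (N q : ℕ) [NeZero N] [Fact q.Prime]

theorem dvd_level : q ∣ N * q := Dvd.intro_left N rfl

/-- **the transfer system** from `Γ₀(N q q)` to `Γ₀(N q)` (helper65's `trSys0`) -/
noncomputable def cores2Sys : CosetSys embR (Gamma0 (N * q * q)) (Gamma0 (N * q)) :=
  trSys0 (N := N * q) (r := q) (dvd_level N q)

/-- the representatives `[1 0; N q j 1]` -/
def rep2 (j : ZMod q) : SL(2, ℤ) := lowT (((N * q : ℕ) : ℤ) * ((j.val : ℕ) : ℤ))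

theorem rep2_mem (j : ZMod q) : rep2 N q j ∈ Gamma0 (N * q) := by
  rw [Fermat.Agent.GM.Amalgam.mem_Gamma0_iff_dvd]
  show ((N * q : ℕ) : ℤ) ∣ ((N * q : ℕ) : ℤ) * ((j.val : ℕ) : ℤ)
  exact dvd_mul_right _ _

theorem cores2Sys_a (j : ZMod q) : (cores2Sys N q).a j = embR (rep2 N q j) := rfl

theorem rep2_distinct (i j : ZMod q)
    (h : rep2 N q i * (rep2 N q j)⁻¹ ∈ Gamma0 (N * q * q)) : i = j := by
  refine trA_distinct (N := N * q) (r := q) i j ⟨_, h⟩ ?_
  show embR (rep2 N q i) = embR (rep2 N q i * (rep2 N q j)⁻¹) * embR (rep2 N q j)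
  rw [← map_mul, inv_mul_cancel_right]

variable (A : Type*) [AddCommGroup A]

/-- the transfer `Hom(Γ₀(N q q), A) → Hom(Γ₀(N q), A)` -/
noncomputable def cores2 :
    (Additive (Gamma0 (N * q * q)) →+ A) →+ (Additive (Gamma0 (N * q)) →+ A) :=
  (cores2Sys N q).op A

/-- the transfer on the parabolic lattices -/
noncomputable def cores2P :
    parabolicHoms ℤ (Gamma0 (N * q * q)) A →+ parabolicHoms ℤ (Gamma0 (N * q)) A :=
  opPar (cores2Sys N q) A

variable {A}

@[simp] theorem cores2P_coe (z : parabolicHoms ℤ (Gamma0 (N * q * q)) A) :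
    ((cores2P N q A z : parabolicHoms ℤ (Gamma0 (N * q)) A) : Additive (Gamma0 (N * q)) →+ A)
      = cores2 N q A z.1 := rfl

theorem card_unit_prod_zmod : Fintype.card (Unit × ZMod q) = q := by
  rw [Fintype.card_prod, Fintype.card_unit, one_mul, ZMod.card]

/-- **`cores2 ∘ res = q`** -/
theorem cores2_comp_res (φ : Additive (Gamma0 (N * q)) →+ A) :
    cores2 N q A (res A (N * q) q φ) = q • φ := by
  unfold cores2 res
  rw [← CosetSys.op_comp]
  rw [CosetSys.op_eq_card_smul ((resSys (N * q) q).comp (cores2Sys N q)) embR_injective 1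
    (fun x => by rw [one_mul, mul_one])
    (fun p : Unit × ZMod q => (⟨rep2 N q p.2, rep2_mem N q p.2⟩ : Gamma0 (N * q))) ?_ φ]
  · congr 1
    exact card_unit_prod_zmod q
  · intro p
    rfl

end Sys

section Adj

variable (N q : ℕ) [NeZero N] [Fact q.Prime]

/-- **inner adjunction** `⟨res x, z⟩_{N q q} = ⟨x, cores2 z⟩_{N q}` -/
theorem lamB_resP_cores2P (x : Lam (N * q)) (z : Lam (N * q * q)) :
    lamB (N * q * q) (resP ℤ (N * q) q x) z = lamB (N * q) x (cores2P N q ℤ z) := by
  have hle := Gamma0_mul_le (N * q) q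
  have : Nonempty (cores2Sys N q).ι := ⟨(0 : ZMod q)⟩
  refine lamForm_res_cores hle (neg_one_mem_Gamma0 (N * q * q)) embR_injective (cores2Sys N q)
    (fun j => rep2 N q j) (fun i => rfl) (fun i => rep2_mem N q i)
    (fun i j h => rep2_distinct N q i j h)
    x (resP ℤ (N * q) q x) (fun γ' => ?_) z (cores2P N q ℤ z) rfl
  rw [resP_coe, res_apply]
  congr 2
  exact Subtype.ext (degenOne_coe γ')

end Adj

end Fermat.Agent.GE9.Eta.Adj3
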