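/-
GATE-E / GE9-ETA-ADJ3 (helper37), file 2: **`cores2 ∘ res_δ = w U_q w`** on `Hom(Γ₀(N q), A)`, and
`cores ∘ (cores2 ∘ res_δ) ∘ res_δ = T_q² − (q + 1)` on `Hom(Γ₀(N), A)`.

`q ∤ N` prime, `(b₀, d₀) = bez hqN` (`q d₀ − N b₀ = 1`), `W = (1, b₀; N, q d₀) δ` the Atkin–Lehner
matrix of `GM/B/AtkinLehner`.  With `r_j = [1 0; N q j 1]` and `α_x = (1, x; 0, q)`:

    δ r_j W = q (q, b₀; N (1 + q j), d₀ + N j b₀),      W α_x = q (1, x + b₀; N, N x + q d₀),

and the two integral matrices differ by an element of `Γ₀(N q)` iff `j = d₀ − N x` in `ZMod q`.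
Hence `w ∘ (cores2 ∘ res_δ) = U_q ∘ w` (helper65's `op_eq_of_reps`), and with helper85's
`res ∘ cores_δ = U_q + w` the composite `cores ∘ cores2 ∘ res_δ ∘ res_δ` is `T_q² − (q + 1)`:
no Hecke-algebra identity for `T(1, q²)` is needed.
-/
import Fermat.Agent.GE9.Eta.Adj3.Cores2
import Fermat.Agent.GM.B5.UqSquare
import Fermat.Agent.GM.B.AtkinLehner

set_option autoImplicit false
set_option linter.unusedSectionVars false

open scoped MatrixGroups
open CongruenceSubgroup Matrix Matrix.SpecialLinearGroup ModularCurve.Period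
open P2MW.S_ModularForm_heckeT_slash_eq_self_of_mem_Gamma0.ModularForm.HeckeSlashInvariance
open P2MW.S_ModularForm_heckeT_slash_eq_self_of_mem_Gamma0.ModularForm
open Fermat.Agent.S16_helper49 Fermat.Agent.GM.Amalgam Fermat.Agent.GM.B Fermat.Agent.GM.Asm
open Fermat.Agent.GB.B5.Betti
open scoped OnePoint

namespace Fermat.Agent.GE9.Eta.Adj3

variable {N q : ℕ} [NeZero N] [Fact q.Prime]

section V

variable (hqN : ¬ q ∣ N)

include hqN in
theorem natCast_ne_zero_of_not_dvd : (N : ZMod q) ≠ 0 := fun h =>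
  hqN ((ZMod.natCast_eq_zero_iff N q).mp h)

/-- the index bijection `x ↦ d₀ − N x` of `ZMod q` -/
noncomputable def idxV : ZMod q ≃ ZMod q :=
  (Equiv.mulLeft₀ (N : ZMod q) (natCast_ne_zero_of_not_dvd hqN)).trans
    (Equiv.subLeft (((bez hqN).2 : ℤ) : ZMod q))

theorem idxV_apply (x : ZMod q) :
    idxV hqN x = (((bez hqN).2 : ℤ) : ZMod q) - (N : ZMod q) * x := rfl

/-- `(q, b₀; N (1 + q t), d₀ + N t b₀)` -/
noncomputable def gamV (t : ℤ) : SL(2, ℤ) :=
  mkZ (q : ℤ) (bez hqN).1 ((N : ℤ) * (1 + q * t)) ((bez hqN).2 + N * t * (bez hqN).1)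
    (by linear_combination bez_spec hqN)

/-- `W α_k = q r_k`, `r_k = (1, k + b₀; N, N k + q d₀)` -/
theorem wMat_mul_heckeMatrix (k : ℕ) :
    wMat hqN * heckeMatrix q k
      = zq q * embR (repC N q (bez hqN).1 (bez hqN).2 (bez_spec hqN) k) := by
  have hq : q ≠ 0 := q_ne_zero'
  unfold wMat
  rw [rZero_coe]
  ext a b
  fin_cases a <;> fin_cases b <;>
    (simp [hq, zq, repC, Matrix.mul_apply, Fin.sum_univ_two, Matrix.natCast_apply]
     try ring1)

/-- `δ [1 0; N q j 1] W = q (q, b₀; N (1 + q j), d₀ + N j b₀)` -/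
theorem dlt_mul_rep2_mul_wMat (j : ZMod q) :
    dlt q * embR (rep2 N q j) * wMat hqN = zq q * embR (gamV hqN ((j.val : ℕ) : ℤ)) := by
  have hq : q ≠ 0 := q_ne_zero'
  unfold wMat
  rw [rZero_coe]
  ext a b
  fin_cases a <;> fin_cases b <;>
    (simp [hq, zq, repC, rep2, gamV, Matrix.mul_apply, Fin.sum_univ_two, Matrix.natCast_apply,
      Matrix.vecMul, dotProduct]
     try ring1)

theorem cast_N_mul_b₀ : (N : ZMod q) * (((bez hqN).1 : ℤ) : ZMod q) = -1 := by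
  have h := congrArg (Int.cast : ℤ → ZMod q) (bez_spec hqN)
  push_cast at h
  rw [ZMod.natCast_self, zero_mul, zero_sub] at h
  rw [← h, neg_neg]

/-- `κ_x = γ_V(j) r_x⁻¹ ∈ Γ₀(N q)` for `j = d₀ − N x` -/
theorem kapV_mem (x : ZMod q) :
    gamV hqN (((idxV hqN x).val : ℕ) : ℤ) *
      (repC N q (bez hqN).1 (bez hqN).2 (bez_spec hqN) x.val)⁻¹ ∈ Gamma0 (N * q) := by
  apply mem_Gamma0_of_dvd
  set t : ℤ := (((idxV hqN x).val : ℕ) : ℤ) with ht
  set k : ℤ := ((x.val : ℕ) : ℤ) with hk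
  have e : (gamV hqN t * (repC N q (bez hqN).1 (bez hqN).2 (bez_spec hqN) x.val)⁻¹) 1 0
      = (N : ℤ) * ((1 + q * t) * (N * k + (bez hqN).2 * q) - (bez hqN).2 - N * t * (bez hqN).1) := by
    rw [sl_mul_10, sl_inv_00, sl_inv_10]
    simp only [gamV, repC, mkZ_10, mkZ_11, hk]
    ring
  rw [e]
  have hdvd : (q : ℤ) ∣
      (1 + q * t) * (N * k + (bez hqN).2 * q) - (bez hqN).2 - N * t * (bez hqN).1 := by
    rw [← ZMod.intCast_zmod_eq_zero_iff_dvd]
    have htc : ((t : ℤ) : ZMod q) = idxV hqN x := by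
      rw [ht, Int.cast_natCast, ZMod.natCast_zmod_val]
    have hkc : ((k : ℤ) : ZMod q) = x := by
      rw [hk, Int.cast_natCast, ZMod.natCast_zmod_val]
    have hNb := cast_N_mul_b₀ hqN
    push_cast
    rw [htc, hkc, idxV_apply, ZMod.natCast_self]
    linear_combination (-(((bez hqN).2 : ℤ) : ZMod q) + (N : ZMod q) * x) * hNb
  obtain ⟨s, hs⟩ := hdvd
  exact ⟨s, by rw [hs]; push_cast; ring⟩

/-- `κ_x` as an element of `Γ₀(N q)` -/
noncomputable def kapV (x : ZMod q) : Gamma0 (N * q) :=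
  ⟨_, kapV_mem hqN x⟩

variable {A : Type*} [AddCommGroup A]

/-- **`w ∘ (cores2 ∘ res_δ) = U_q ∘ w`** on `Hom(Γ₀(N q), A)` -/
theorem wOp_cores2_resD (φ : Additive (Gamma0 (N * q)) →+ A) :
    wOp hqN A (cores2 N q A (resD A (N * q) q φ))
      = cohU (Fermat.Agent.GM.B5.dvd_mul_self_right (N := N) (q := q)) A (wOp hqN A φ) := by
  rw [← Fermat.Agent.GM.B5.uSys_op]
  unfold wOp cores2 resD
  rw [← CosetSys.op_comp (resDSys (N * q) q) (cores2Sys N q) φ,
    ← CosetSys.op_comp _ (wSys hqN) φ,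
    ← CosetSys.op_comp (wSys hqN)
      (Fermat.Agent.GM.B5.uSys (Fermat.Agent.GM.B5.dvd_mul_self_right (N := N) (q := q))) φ]
  refine op_eq_of_reps
    ((wSys hqN).comp
      (Fermat.Agent.GM.B5.uSys (Fermat.Agent.GM.B5.dvd_mul_self_right (N := N) (q := q))))
    (((resDSys (N * q) q).comp (cores2Sys N q)).comp (wSys hqN)) embR_injective
    (((Equiv.refl Unit).prodCongr (idxV hqN)).trans (Equiv.prodPUnit (Unit × ZMod q)).symm)
    1 (fun x => by rw [one_mul, mul_one]) (fun p => kapV hqN p.2) ?_ φ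
  rintro ⟨u, (x : ZMod q)⟩
  show (dlt q * embR (rep2 N q (idxV hqN x))) * wMat hqN
    = 1 * embR (gamV hqN (((idxV hqN x).val : ℕ) : ℤ) *
        (repC N q (bez hqN).1 (bez hqN).2 (bez_spec hqN) x.val)⁻¹)
      * (wMat hqN * heckeMatrix q x.val)
  rw [dlt_mul_rep2_mul_wMat, wMat_mul_heckeMatrix, map_mul, map_inv, one_mul,
    zq_comm q (embR (repC N q (bez hqN).1 (bez hqN).2 (bez_spec hqN) x.val)), ← mul_assoc,
    inv_mul_cancel_right, zq_comm]

/-- **`cores2 ∘ res_δ = w ∘ U_q ∘ w`** on `Hom(Γ₀(N q), A)` -/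
theorem cores2_resD_eq (φ : Additive (Gamma0 (N * q)) →+ A) :
    cores2 N q A (resD A (N * q) q φ)
      = wOp hqN A (cohU (Fermat.Agent.GM.B5.dvd_mul_self_right (N := N) (q := q)) A
          (wOp hqN A φ)) := by
  rw [← wOp_cores2_resD hqN φ, wOp_wOp]

/-- helper85's Atkin–Lehner system is helper91's operator `w_q` -/
theorem wSysB5_op (ψ : Additive (Gamma0 (N * q)) →+ A) :
    (Fermat.Agent.GM.B5.wSys N q (bez hqN).1 (bez hqN).2 (bez_spec hqN)).op A ψ = wOp hqN A ψ := by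
  unfold wOp
  refine op_eq_of_reps (wSys hqN)
    (Fermat.Agent.GM.B5.wSys N q (bez hqN).1 (bez hqN).2 (bez_spec hqN)) embR_injective
    (Equiv.refl Unit) 1 (fun x => by rw [one_mul, mul_one]) (fun _ => 1) ?_ ψ
  intro _
  show Fermat.Agent.GM.B5.wMat N q (bez hqN).1 (bez hqN).2 (bez_spec hqN)
    = 1 * embR ((1 : Gamma0 (N * q)) : SL(2, ℤ)) * wMat hqN
  rw [Subgroup.coe_one, map_one, one_mul, one_mul]
  unfold Fermat.Agent.GM.B5.wMat wMat
  rw [rZero_coe]
  congr 2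
  ext a b
  fin_cases a <;> fin_cases b <;>
    (simp [Fermat.Agent.GM.B5.gamW, repC]
     try ring1)

/-- helper85's identity `res ∘ cores_δ = U_q + w`, solved for `U_q` -/
theorem cohU_eq (ψ : Additive (Gamma0 (N * q)) →+ A) :
    cohU (Fermat.Agent.GM.B5.dvd_mul_self_right (N := N) (q := q)) A ψ
      = res A N q (coresD A hqN ψ) - wOp hqN A ψ := by
  have h := Fermat.Agent.GM.B5.res_coresD_eq hqN (bez hqN).1 (bez hqN).2 (bez_spec hqN) ψ
  rw [Fermat.Agent.GM.B5.uSys_op, wSysB5_op] at h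
  rw [eq_sub_iff_add_eq, ← h]
  rfl

/-- **`cores ∘ cores2 ∘ res_δ ∘ res_δ = T_q² − (q + 1)`** on `Hom(Γ₀(N), A)` -/
theorem cores_cores2_resD_resD (φ : Additive (Gamma0 N) →+ A) :
    cores A hqN (cores2 N q A (resD A (N * q) q (resD A N q φ)))
      = cohT hqN A (cohT hqN A φ) - (q + 1) • φ := by
  rw [cores2_resD_eq hqN, cores_wOp, wOp_resD, cohU_eq hqN, map_sub, coresD_comp_res,
    coresD_comp_res, coresD_wOp, cores_comp_res]

/-- **`cores_δ ∘ cores2 ∘ res_δ ∘ res_δ = q T_q`** on `Hom(Γ₀(N), A)` -/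
theorem coresD_cores2_resD_resD (φ : Additive (Gamma0 N) →+ A) :
    coresD A hqN (cores2 N q A (resD A (N * q) q (resD A N q φ))) = q • cohT hqN A φ := by
  rw [cores2_resD_eq hqN, coresD_wOp, wOp_resD, cohU_eq hqN, map_sub, coresD_comp_res,
    cores_comp_res, cores_wOp, coresD_comp_res, add_smul, one_smul, add_sub_cancel_right]

end V

end Fermat.Agent.GE9.Eta.Adj3
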