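/-
GATE-E / GE9-ETA-ADJ3 (helper37), file 3: **the Atkin–Lehner operator `W_{q²}` of level `N q q`**.

`q ∤ N` prime, `q² d − N b = 1`.  `W₂ = γ₂ δ²`, `γ₂ = (1, b; N, q² d)`, `δ = diag(q, 1)`, of
determinant `q²`, normalises `Γ₀(N q q)`; `δ² γ₂ δ² = q² (q², b; N, d)`, `δ γ₂ δ = q (q, b; N, q d)`.

* `w2Hom : Γ₀(N q q) →* Γ₀(N q q)`, `g ↦ W₂ g W₂⁻¹`; `w2Sys`, `w2Op`, `w2P`;
* `lamB_w2P_w2P` : `W₂` is an ISOMETRY of the unimodular cup form of level `N q q`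
  (`GM/Theta/Outer.lamForm_isometry`);
* `w2Op_res_res : W₂ (res (res φ)) = res_δ (res_δ φ)`,
  `w2Op_res_resD : W₂ (res (res_δ φ)) = res (res_δ φ)`.
-/
import Fermat.Agent.GM.Theta.Outer
import Fermat.Agent.GB.B5.Betti.SysTools

set_option autoImplicit false
set_option linter.unusedSectionVars false

open scoped MatrixGroups
open CongruenceSubgroup Matrix Matrix.SpecialLinearGroup ModularCurve.Period
open P2MW.S_ModularForm_heckeT_slash_eq_self_of_mem_Gamma0.ModularForm.HeckeSlashInvariance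
open P2MW.S_ModularForm_heckeT_slash_eq_self_of_mem_Gamma0.ModularForm
open Fermat.Agent.S16_helper49 Fermat.Agent.GM.Amalgam Fermat.Agent.GM.B Fermat.Agent.GM.Bridge
  Fermat.Agent.GM.PD Fermat.Agent.GJ.J2.Lat Fermat.Agent.GM.Asm
open Fermat.Agent.GM.Theta.Outer
open Fermat.Agent.GB.B5.Betti

namespace Fermat.Agent.GE9.Eta.Adj3

variable {N q : ℕ} [Fact q.Prime]

/-! ### a Bézout pair for `q²` -/

theorem exists_bezout_sq (hqN : ¬ q ∣ N) : ∃ p : ℤ × ℤ, (q : ℤ) ^ 2 * p.2 - N * p.1 = 1 := by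
  have h := bez_spec hqN
  refine ⟨((bez hqN).1 * (1 + q * (bez hqN).2), (bez hqN).2 ^ 2), ?_⟩
  show (q : ℤ) ^ 2 * (bez hqN).2 ^ 2 - N * ((bez hqN).1 * (1 + q * (bez hqN).2)) = 1
  linear_combination ((q : ℤ) * (bez hqN).2 + 1) * h

/-! ### generalities -/

theorem zq_sq_comm (Y : GL (Fin 2) ℝ) : zq q * zq q * Y = Y * (zq q * zq q) := by
  rw [mul_assoc, zq_comm q Y, ← mul_assoc, zq_comm q Y, mul_assoc]

/-- if `D X D = Z X'` (`Z` central) and `D g = g' D` then `D (X g' X⁻¹) = (X' g X'⁻¹) D` -/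
theorem conj_rel_of_sandwich {G : Type*} [Group G] (D Z X X' g g' : G)
    (hZ : ∀ Y : G, Z * Y = Y * Z) (h1 : D * X * D = Z * X') (h2 : D * g = g' * D) :
    D * (X * g' * X⁻¹) = X' * g * X'⁻¹ * D := by
  have e1 : X = D⁻¹ * (Z * X') * D⁻¹ := by rw [← h1]; group
  have e2 : g' = D * g * D⁻¹ := by rw [h2]; group
  have hz : ∀ Y : G, Z * Y * Z⁻¹ = Y := fun Y => by rw [hZ, mul_inv_cancel_right]
  rw [e1, e2]
  calc _ = Z * (X' * g * X'⁻¹) * Z⁻¹ * D := by group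
    _ = _ := by rw [hz]

/-! ### entries -/

/-- key entry relation: `δ² k = m δ²` forces `k₁₀ = q² m₁₀` -/
theorem lower_left_of_dlt_sq_rel (k m : SL(2, ℤ))
    (h : dlt q * dlt q * embR k = embR m * (dlt q * dlt q)) : k 1 0 = (q : ℤ) ^ 2 * m 1 0 := by
  have hq : q ≠ 0 := q_ne_zero'
  have h1 := congrArg (fun M : GL (Fin 2) ℝ => (M : Matrix (Fin 2) (Fin 2) ℝ) 1 0) h
  simp [hq, Matrix.mul_apply, Fin.sum_univ_two] at h1
  have h2 : ((k 1 0 : ℤ) : ℝ) = (((q : ℤ) ^ 2 * m 1 0 : ℤ) : ℝ) := by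
    push_cast
    linarith
  exact_mod_cast h2

theorem mem_Gamma0_mul_mul_of_dlt_sq_rel (k m : SL(2, ℤ)) (hm : m ∈ Gamma0 N)
    (h : dlt q * dlt q * embR k = embR m * (dlt q * dlt q)) : k ∈ Gamma0 (N * q * q) := by
  apply mem_Gamma0_of_dvd
  rw [lower_left_of_dlt_sq_rel k m h]
  obtain ⟨t, ht⟩ := dvd_of_mem_Gamma0 (⟨m, hm⟩ : Gamma0 N)
  have ht' : m 1 0 = N * t := ht
  exact ⟨t, by rw [ht']; push_cast; ring⟩

theorem Gamma0_mul_mul_le (N q : ℕ) : Gamma0 (N * q * q) ≤ Gamma0 N :=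
  (Gamma0_mul_le (N * q) q).trans (Gamma0_mul_le N q)

/-- `g ↦ δ² g δ⁻²`, `Γ₀(N q q) → Γ₀(N)` -/
noncomputable def dd (N q : ℕ) [Fact q.Prime] : Gamma0 (N * q * q) →* Gamma0 N :=
  (degenDelta N q).comp (degenDelta (N * q) q)

theorem dd_rel (g : Gamma0 (N * q * q)) :
    dlt q * dlt q * embR (g : SL(2, ℤ)) = embR ((dd N q g : Gamma0 N) : SL(2, ℤ)) * (dlt q * dlt q) := by
  have h1 := dlt_rel_degenDelta (N := N * q) (q := q) g
  have h2 := dlt_rel_degenDelta (N := N) (q := q) (degenDelta (N * q) q g)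
  calc dlt q * dlt q * embR (g : SL(2, ℤ))
      = dlt q * (dlt q * embR (g : SL(2, ℤ))) := mul_assoc _ _ _
    _ = dlt q * (embR ((degenDelta (N * q) q g : Gamma0 (N * q)) : SL(2, ℤ)) * dlt q) :=
        congrArg (fun X => dlt q * X) h1
    _ = dlt q * embR ((degenDelta (N * q) q g : Gamma0 (N * q)) : SL(2, ℤ)) * dlt q :=
        (mul_assoc _ _ _).symm
    _ = embR ((degenDelta N q (degenDelta (N * q) q g) : Gamma0 N) : SL(2, ℤ)) * dlt q * dlt q :=
        congrArg (fun X => X * dlt q) h2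
    _ = embR ((dd N q g : Gamma0 N) : SL(2, ℤ)) * (dlt q * dlt q) := mul_assoc _ _ _

/-! ### the matrices -/

section Mat

variable (N q) (b d : ℤ) (hbd : (q : ℤ) ^ 2 * d - N * b = 1)

/-- `γ₂ = (1, b; N, q² d)` -/
def gamTwo : SL(2, ℤ) := mkZ 1 b (N : ℤ) ((q : ℤ) ^ 2 * d) (by linarith)

/-- `γ₂' = (q², b; N, d)`, `δ² γ₂ δ² = q² γ₂'` -/
def gamTwo' : SL(2, ℤ) := mkZ ((q : ℤ) ^ 2) b (N : ℤ) d (by linarith)

/-- `γ₁' = (q, b; N, q d)`, `δ γ₂ δ = q γ₁'` -/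
def gamOne' : SL(2, ℤ) := mkZ (q : ℤ) b (N : ℤ) ((q : ℤ) * d) (by linear_combination hbd)

theorem gamTwo_mem : gamTwo N q b d hbd ∈ Gamma0 N := mem_Gamma0_of_dvd (by simp [gamTwo])
theorem gamTwo'_mem : gamTwo' N q b d hbd ∈ Gamma0 N := mem_Gamma0_of_dvd (by simp [gamTwo'])
theorem gamOne'_mem : gamOne' N q b d hbd ∈ Gamma0 N := mem_Gamma0_of_dvd (by simp [gamOne'])

/-- `δ² γ₂ δ² = q² γ₂'` -/
theorem dlt_sq_gamTwo_dlt_sq :
    dlt q * dlt q * embR (gamTwo N q b d hbd) * (dlt q * dlt q)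
      = zq q * zq q * embR (gamTwo' N q b d hbd) := by
  have hq : q ≠ 0 := q_ne_zero'
  ext a c
  fin_cases a <;> fin_cases c <;>
    (simp [hq, zq, Matrix.mul_apply, Fin.sum_univ_two, gamTwo, gamTwo', Matrix.natCast_apply,
      Matrix.vecMul, dotProduct]
     try (first | ring1 | (ring_nf; simp)))

/-- `δ γ₂ δ = q γ₁'` -/
theorem dlt_gamTwo_dlt :
    dlt q * embR (gamTwo N q b d hbd) * dlt q = zq q * embR (gamOne' N q b d hbd) := by
  have hq : q ≠ 0 := q_ne_zero'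
  ext a c
  fin_cases a <;> fin_cases c <;>
    (simp [hq, zq, Matrix.mul_apply, Fin.sum_univ_two, gamTwo, gamOne', Matrix.natCast_apply,
      Matrix.vecMul, dotProduct]
     try ring1)

/-- the Atkin–Lehner matrix `W₂ = γ₂ δ²` -/
noncomputable def w2Mat : GL (Fin 2) ℝ := embR (gamTwo N q b d hbd) * (dlt q * dlt q)

/-- `γ₂` as an element of `Γ₀(N)` -/
def gTwo : Gamma0 N := ⟨gamTwo N q b d hbd, gamTwo_mem N q b d hbd⟩

/-- `δ² (γ₂ (δ² g δ⁻²) γ₂⁻¹) = (γ₂' g γ₂'⁻¹) δ²` -/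
theorem w2Hom_rel (g : Gamma0 (N * q * q)) :
    dlt q * dlt q *
        embR ((gTwo N q b d hbd * dd N q g * (gTwo N q b d hbd)⁻¹ : Gamma0 N) : SL(2, ℤ))
      = embR (gamTwo' N q b d hbd * (g : SL(2, ℤ)) * (gamTwo' N q b d hbd)⁻¹)
          * (dlt q * dlt q) := by
  have h1 := dlt_sq_gamTwo_dlt_sq N q b d hbd
  have h2 := dd_rel (N := N) (q := q) g
  simp only [Subgroup.coe_mul, Subgroup.coe_inv, map_mul, map_inv]
  exact conj_rel_of_sandwich (dlt q * dlt q) (zq q * zq q) (embR (gamTwo N q b d hbd))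
    (embR (gamTwo' N q b d hbd)) (embR (g : SL(2, ℤ))) (embR ((dd N q g : Gamma0 N) : SL(2, ℤ)))
    zq_sq_comm h1 h2

/-- **conjugation by `W₂`** as an endomorphism of `Γ₀(N q q)` -/
noncomputable def w2Hom : Gamma0 (N * q * q) →* Gamma0 (N * q * q) :=
  MonoidHom.codRestrict
    ((Gamma0 N).subtype.comp
      ((MulAut.conj (gTwo N q b d hbd)).toMonoidHom.comp (dd N q)))
    (Gamma0 (N * q * q))
    (fun g => by
      have h := w2Hom_rel N q b d hbd g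
      refine mem_Gamma0_mul_mul_of_dlt_sq_rel _ _ ?_ h
      exact (Gamma0 N).mul_mem ((Gamma0 N).mul_mem (gamTwo'_mem N q b d hbd)
        (Gamma0_mul_mul_le N q g.2)) ((Gamma0 N).inv_mem (gamTwo'_mem N q b d hbd)))

theorem w2Hom_coe (g : Gamma0 (N * q * q)) :
    ((w2Hom N q b d hbd g : Gamma0 (N * q * q)) : SL(2, ℤ))
      = ((gTwo N q b d hbd * dd N q g * (gTwo N q b d hbd)⁻¹ : Gamma0 N) : SL(2, ℤ)) := rfl

theorem w2Mat_rel (g : Gamma0 (N * q * q)) :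
    w2Mat N q b d hbd * embR (g : SL(2, ℤ))
      = embR ((w2Hom N q b d hbd g : Gamma0 (N * q * q)) : SL(2, ℤ)) * w2Mat N q b d hbd := by
  have h2 := dd_rel (N := N) (q := q) g
  rw [w2Hom_coe]
  unfold w2Mat
  simp only [Subgroup.coe_mul, Subgroup.coe_inv, map_mul, map_inv]
  show embR (gamTwo N q b d hbd) * (dlt q * dlt q) * embR (g : SL(2, ℤ))
    = embR (gamTwo N q b d hbd) * embR ((dd N q g : Gamma0 N) : SL(2, ℤ)) *
      (embR (gamTwo N q b d hbd))⁻¹ * (embR (gamTwo N q b d hbd) * (dlt q * dlt q))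
  rw [mul_assoc, h2]
  group

/-- `m₂ = γ₂ γ₂'`, `W₂² = q² m₂` -/
def w2Sq : SL(2, ℤ) := gamTwo N q b d hbd * gamTwo' N q b d hbd

theorem w2Sq_mem : w2Sq N q b d hbd ∈ Gamma0 (N * q * q) := by
  apply mem_Gamma0_of_dvd
  refine ⟨1 + d, ?_⟩
  unfold w2Sq
  rw [Matrix.SpecialLinearGroup.coe_mul, Matrix.mul_apply, Fin.sum_univ_two]
  simp [gamTwo, gamTwo']
  ring

theorem w2Mat_mul_w2Mat :
    w2Mat N q b d hbd * w2Mat N q b d hbd = zq q * zq q * embR (w2Sq N q b d hbd) := by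
  have h1 := dlt_sq_gamTwo_dlt_sq N q b d hbd
  have hz : ∀ Y : GL (Fin 2) ℝ, Y * (zq q * zq q) = zq q * zq q * Y := fun Y =>
    (zq_sq_comm Y).symm
  unfold w2Mat w2Sq
  rw [map_mul]
  calc embR (gamTwo N q b d hbd) * (dlt q * dlt q) * (embR (gamTwo N q b d hbd) * (dlt q * dlt q))
      = embR (gamTwo N q b d hbd) *
          (dlt q * dlt q * embR (gamTwo N q b d hbd) * (dlt q * dlt q)) := by group
    _ = embR (gamTwo N q b d hbd) * (zq q * zq q * embR (gamTwo' N q b d hbd)) := by rw [h1]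
    _ = _ := by rw [← mul_assoc, hz, mul_assoc]

/-- `κ (κ g) = m₂ g m₂⁻¹` -/
theorem w2Hom_w2Hom (g : Gamma0 (N * q * q)) :
    w2Hom N q b d hbd (w2Hom N q b d hbd g)
      = (⟨w2Sq N q b d hbd, w2Sq_mem N q b d hbd⟩ : Gamma0 (N * q * q)) * g *
        (⟨w2Sq N q b d hbd, w2Sq_mem N q b d hbd⟩ : Gamma0 (N * q * q))⁻¹ := by
  rw [eq_mul_inv_iff_mul_eq]
  apply Subtype.ext
  apply embR_injective
  rw [Subgroup.coe_mul, Subgroup.coe_mul, map_mul, map_mul]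
  show embR ((w2Hom N q b d hbd (w2Hom N q b d hbd g) : Gamma0 (N * q * q)) : SL(2, ℤ))
      * embR (w2Sq N q b d hbd)
    = embR (w2Sq N q b d hbd) * embR (g : SL(2, ℤ))
  have h1 := w2Mat_rel N q b d hbd g
  have h2 := w2Mat_rel N q b d hbd (w2Hom N q b d hbd g)
  have h3 := w2Mat_mul_w2Mat N q b d hbd
  have h4 : w2Mat N q b d hbd * w2Mat N q b d hbd * embR (g : SL(2, ℤ))
      = embR ((w2Hom N q b d hbd (w2Hom N q b d hbd g) : Gamma0 (N * q * q)) : SL(2, ℤ))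
        * (w2Mat N q b d hbd * w2Mat N q b d hbd) := by
    rw [mul_assoc, h1, ← mul_assoc, h2, mul_assoc]
  have hz : ∀ Y : GL (Fin 2) ℝ, Y * (zq q * zq q) = zq q * zq q * Y := fun Y =>
    (zq_sq_comm Y).symm
  rw [h3, mul_assoc (zq q * zq q), ← mul_assoc _ (zq q * zq q), hz, mul_assoc (zq q * zq q)] at h4
  exact (mul_left_cancel h4).symm

theorem w2Hom_surjective : Function.Surjective (w2Hom N q b d hbd) := by
  intro γ
  refine ⟨w2Hom N q b d hbd ((⟨w2Sq N q b d hbd, w2Sq_mem N q b d hbd⟩ : Gamma0 (N * q * q))⁻¹ * γ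
    * (⟨w2Sq N q b d hbd, w2Sq_mem N q b d hbd⟩ : Gamma0 (N * q * q))), ?_⟩
  rw [w2Hom_w2Hom]
  group

/-- the rational matrix `W₂` -/
noncomputable def w2Q : GL(2, ℚ)⁺ :=
  Fermat.Agent.GM.Theta.emb (gamTwo N q b d hbd) * (dQ q q_ne_zero' * dQ q q_ne_zero')

theorem toR_w2Q : toR (w2Q N q b d hbd) = w2Mat N q b d hbd := by
  unfold w2Q w2Mat
  rw [map_mul, map_mul, toR_emb, toR_dQ]

theorem w2Q_rel (g : Gamma0 (N * q * q)) :
    w2Q N q b d hbd * Fermat.Agent.GM.Theta.emb (g : SL(2, ℤ))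
      = Fermat.Agent.GM.Theta.emb ((w2Hom N q b d hbd g : Gamma0 (N * q * q)) : SL(2, ℤ))
        * w2Q N q b d hbd := by
  apply toR_injective
  rw [map_mul, map_mul, toR_w2Q, toR_emb, toR_emb]
  exact w2Mat_rel N q b d hbd g

/-- the coset system of `W₂` -/
noncomputable def w2Sys : CosetSys embR (Gamma0 (N * q * q)) (Gamma0 (N * q * q)) :=
  CosetSys.single embR (w2Mat N q b d hbd) (w2Hom N q b d hbd) (w2Mat_rel N q b d hbd)

/-- **the Atkin–Lehner operator `W_{q²}`** on `Hom(Γ₀(N q q), A)` -/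
noncomputable def w2Op (A : Type*) [AddCommGroup A] :
    (Additive (Gamma0 (N * q * q)) →+ A) →+ (Additive (Gamma0 (N * q * q)) →+ A) :=
  (w2Sys N q b d hbd).op A

theorem w2Op_apply {A : Type*} [AddCommGroup A] (z : Additive (Gamma0 (N * q * q)) →+ A)
    (g : Gamma0 (N * q * q)) :
    w2Op N q b d hbd A z (Additive.ofMul g) = z (Additive.ofMul (w2Hom N q b d hbd g)) :=
  CosetSys.single_op_apply _ _ _ z g

/-- `W_{q²}` on the parabolic lattice -/
noncomputable def w2P (A : Type*) [AddCommGroup A] :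
    parabolicHoms ℤ (Gamma0 (N * q * q)) A →+ parabolicHoms ℤ (Gamma0 (N * q * q)) A :=
  opPar (w2Sys N q b d hbd) A

@[simp] theorem w2P_coe {A : Type*} [AddCommGroup A]
    (z : parabolicHoms ℤ (Gamma0 (N * q * q)) A) :
    ((w2P N q b d hbd A z : parabolicHoms ℤ (Gamma0 (N * q * q)) A) :
        Additive (Gamma0 (N * q * q)) →+ A) = w2Op N q b d hbd A z.1 := rfl

attribute [local instance] quotFintype quotDecEq

/-- **`W_{q²}` is an isometry of the unimodular cup form of level `N q q`** -/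
theorem lamB_w2P_w2P [NeZero (N * q * q)] (x y : Lam (N * q * q)) :
    lamB (N * q * q) (w2P N q b d hbd ℤ x) (w2P N q b d hbd ℤ y) = lamB (N * q * q) x y :=
  lamForm_isometry (w2Q N q b d hbd) (w2Hom N q b d hbd) (w2Q_rel N q b d hbd)
    (w2Hom_surjective N q b d hbd) (neg_one_mem_Gamma0 (N * q * q)) (w2Op N q b d hbd ℤ)
    (fun ψ g => w2Op_apply N q b d hbd ψ g) (w2P N q b d hbd ℤ) (fun _ => rfl) x y

/-! ### `W₂` and the degeneracy maps -/

variable {A : Type*} [AddCommGroup A]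

/-- **`W₂ ∘ res ∘ res = res_δ ∘ res_δ`** -/
theorem w2Op_res_res (φ : Additive (Gamma0 N) →+ A) :
    w2Op N q b d hbd A (res A (N * q) q (res A N q φ)) = resD A (N * q) q (resD A N q φ) := by
  unfold w2Op res resD
  rw [← CosetSys.op_comp (resSys N q) (resSys (N * q) q) φ,
    ← CosetSys.op_comp _ (w2Sys N q b d hbd) φ,
    ← CosetSys.op_comp (resDSys N q) (resDSys (N * q) q) φ]
  refine op_eq_of_reps ((resDSys N q).comp (resDSys (N * q) q))
    (((resSys N q).comp (resSys (N * q) q)).comp (w2Sys N q b d hbd)) embR_injective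
    (Equiv.prodPUnit (Unit × Unit)).symm 1 (fun x => by rw [one_mul, mul_one])
    (fun _ => gTwo N q b d hbd) ?_ φ
  intro _
  show (1 * 1) * w2Mat N q b d hbd = 1 * embR (gamTwo N q b d hbd) * (dlt q * dlt q)
  unfold w2Mat
  group

/-- **`W₂ ∘ res ∘ res_δ = res ∘ res_δ`** -/
theorem w2Op_res_resD (φ : Additive (Gamma0 N) →+ A) :
    w2Op N q b d hbd A (res A (N * q) q (resD A N q φ)) = res A (N * q) q (resD A N q φ) := by
  unfold w2Op res resD
  rw [← CosetSys.op_comp (resDSys N q) (resSys (N * q) q) φ,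
    ← CosetSys.op_comp _ (w2Sys N q b d hbd) φ]
  refine op_eq_of_reps ((resDSys N q).comp (resSys (N * q) q))
    (((resDSys N q).comp (resSys (N * q) q)).comp (w2Sys N q b d hbd)) embR_injective
    (Equiv.prodPUnit (Unit × Unit)).symm (zq q) (zq_comm q)
    (fun _ => ⟨gamOne' N q b d hbd, gamOne'_mem N q b d hbd⟩) ?_ φ
  intro _
  show (dlt q * 1) * w2Mat N q b d hbd = zq q * embR (gamOne' N q b d hbd) * (dlt q * 1)
  have h := dlt_gamTwo_dlt N q b d hbd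
  unfold w2Mat
  rw [mul_one, ← h]
  group

end Mat

end Fermat.Agent.GE9.Eta.Adj3
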