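/-
GATE-E / GE9-ETA-ADJ3 (helper37), file 4: **the adjointness matrix of the three degeneracy maps
`Λ_N³ → Λ_{N q q}` is `A3op q T_q`** — the binder `hadj` of helper2's
`GE9/Eta/Three.card_congMod_growth_three`, for the unimodular cup forms `lamB`.

`q ∤ N` prime; on `Λ_M = parabolicHoms ℤ Γ₀(M) ℤ`:

* `pi1 = res ∘ res`, `pi2 = res ∘ res_δ`, `pi3 = res_δ ∘ res_δ : Λ_N → Λ_{N q q}`
  (pointwise `x(g)`, `x(δ g δ⁻¹)`, `x(δ² g δ⁻²)`), `alpha3 u = pi1 (u 0) + pi2 (u 1) + pi3 (u 2)`;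
* `Tq hqN : Λ_N →ₗ[ℤ] Λ_N` : helper91's `heckeP ℤ hqN` (`= latT N q`, `tq_eq_latT`);
* the nine Gram entries `gram_ij`;
* **`hadj3`** : `⟨alpha3 u, alpha3 w⟩_{N q q} = ∑ m n, ⟨u m, A3op q T_q m n (w n)⟩_N`.
-/
import Fermat.Agent.GE9.Eta.Adj3.UT
import Fermat.Agent.GE9.Eta.Adj3.W2
import Fermat.Agent.GE9.Eta.Three

set_option autoImplicit false
set_option linter.unusedSectionVars false

open scoped MatrixGroups
open CongruenceSubgroup Matrix Matrix.SpecialLinearGroup ModularCurve.Period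
open Fermat.Agent.S16_helper49 Fermat.Agent.GM.Amalgam Fermat.Agent.GM.B Fermat.Agent.GM.Bridge
  Fermat.Agent.GM.PD Fermat.Agent.GJ.J2.Lat Fermat.Agent.GM.Asm
open Fermat.Agent.GM.Theta.Outer

namespace Fermat.Agent.GE9.Eta.Adj3

attribute [local instance] quotFintype quotDecEq

section Defs

variable (N q : ℕ) [NeZero N] [Fact q.Prime]

/-- `π₁* = res ∘ res : Λ_N → Λ_{N q q}`, `x ↦ x(g)` -/
noncomputable def pi1 : Lam N →+ Lam (N * q * q) := (resP ℤ (N * q) q).comp (resP ℤ N q)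

/-- `π₂* = res ∘ res_δ : Λ_N → Λ_{N q q}`, `x ↦ x(δ g δ⁻¹)` -/
noncomputable def pi2 : Lam N →+ Lam (N * q * q) := (resP ℤ (N * q) q).comp (resDP ℤ N q)

/-- `π₃* = res_δ ∘ res_δ : Λ_N → Λ_{N q q}`, `x ↦ x(δ² g δ⁻²)` -/
noncomputable def pi3 : Lam N →+ Lam (N * q * q) := (resDP ℤ (N * q) q).comp (resDP ℤ N q)

theorem pi1_apply (x : Lam N) : pi1 N q x = resP ℤ (N * q) q (resP ℤ N q x) := rfl
theorem pi2_apply (x : Lam N) : pi2 N q x = resP ℤ (N * q) q (resDP ℤ N q x) := rfl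
theorem pi3_apply (x : Lam N) : pi3 N q x = resDP ℤ (N * q) q (resDP ℤ N q x) := rfl

/-- **the three degeneracy maps** `α₃ : Λ_N³ → Λ_{N q q}` -/
noncomputable def alpha3 : (Fin 3 → Lam N) →ₗ[ℤ] Lam (N * q * q) :=
  (pi1 N q).toIntLinearMap.comp (LinearMap.proj 0)
    + (pi2 N q).toIntLinearMap.comp (LinearMap.proj 1)
    + (pi3 N q).toIntLinearMap.comp (LinearMap.proj 2)

theorem alpha3_apply (u : Fin 3 → Lam N) :
    alpha3 N q u = pi1 N q (u 0) + pi2 N q (u 1) + pi3 N q (u 2) := rfl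

end Defs

section Pre

variable {N q : ℕ} [NeZero N] [Fact q.Prime]

theorem lam_nsmul (M : ℕ) [NeZero M] (n : ℕ) (x y : Lam M) :
    lamB M x (n • y) = (n : ℤ) * lamB M x y := by
  rw [map_nsmul, nsmul_eq_mul]

theorem cores2P_resP (y : Lam (N * q)) : cores2P N q ℤ (resP ℤ (N * q) q y) = q • y :=
  Subtype.ext (by rw [cores2P_coe, resP_coe, cores2_comp_res]; rfl)

/-- `⟨res x, res y⟩_{N q q} = q ⟨x, y⟩_{N q}` -/
theorem lamB_resP_resP (x y : Lam (N * q)) :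
    lamB (N * q * q) (resP ℤ (N * q) q x) (resP ℤ (N * q) q y) = (q : ℤ) * lamB (N * q) x y := by
  rw [lamB_resP_cores2P, cores2P_resP, lam_nsmul]

end Pre

section Gram

variable {N q : ℕ} [NeZero N] [Fact q.Prime] (hqN : ¬ q ∣ N)

/-- `T_q` on `Λ_N` as a `ℤ`-linear map -/
noncomputable def Tq : Lam N →ₗ[ℤ] Lam N := (heckeP ℤ hqN).toIntLinearMap

theorem Tq_apply (x : Lam N) : Tq hqN x = heckeP ℤ hqN x := rfl

theorem tq_eq_latT (hq : q.Prime) (x : Lam N) : Tq hqN x = latT N (⟨q, hq⟩ : Nat.Primes) x :=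
  heckeP_eq_latT_primes (⟨q, hq⟩ : Nat.Primes) hqN x

/-! ### level `N q` -/

include hqN

theorem coresP_resP (w : Lam N) : coresP ℤ hqN (resP ℤ N q w) = (q + 1) • w :=
  Subtype.ext (by rw [coresP_coe, resP_coe, cores_comp_res]; rfl)

theorem coresP_resDP (w : Lam N) : coresP ℤ hqN (resDP ℤ N q w) = heckeP ℤ hqN w :=
  Subtype.ext (by rw [coresP_coe, resDP_coe, cores_comp_resD, heckeP_coe])

theorem coresDP_resP (w : Lam N) : coresDP ℤ hqN (resP ℤ N q w) = heckeP ℤ hqN w :=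
  Subtype.ext (by rw [coresDP_coe, resP_coe, coresD_comp_res, heckeP_coe])

theorem coresDP_resDP (w : Lam N) : coresDP ℤ hqN (resDP ℤ N q w) = (q + 1) • w :=
  Subtype.ext (by rw [coresDP_coe, resDP_coe, coresD_comp_resD]; rfl)

theorem h11 (u w : Lam N) :
    lamB (N * q) (resP ℤ N q u) (resP ℤ N q w) = ((q : ℤ) + 1) * lamB N u w := by
  rw [lamB_resP_coresP hqN, coresP_resP, lam_nsmul]
  push_cast
  ring

theorem h12 (u w : Lam N) :
    lamB (N * q) (resP ℤ N q u) (resDP ℤ N q w) = lamB N u (Tq hqN w) := by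
  rw [lamB_resP_coresP hqN, coresP_resDP, Tq_apply]

theorem h21 (u w : Lam N) :
    lamB (N * q) (resDP ℤ N q u) (resP ℤ N q w) = lamB N u (Tq hqN w) := by
  rw [lamB_O1 hqN, coresDP_resP, Tq_apply]

theorem h22 (u w : Lam N) :
    lamB (N * q) (resDP ℤ N q u) (resDP ℤ N q w) = ((q : ℤ) + 1) * lamB N u w := by
  rw [lamB_O1 hqN, coresDP_resDP, lam_nsmul]
  push_cast
  ring

/-! ### level `N q q` -/

theorem gram11 (u w : Lam N) :
    lamB (N * q * q) (pi1 N q u) (pi1 N q w) = ((q : ℤ) * (q + 1)) * lamB N u w := by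
  rw [pi1_apply, pi1_apply, lamB_resP_resP, h11 hqN]
  ring

theorem gram12 (u w : Lam N) :
    lamB (N * q * q) (pi1 N q u) (pi2 N q w) = (q : ℤ) * lamB N u (Tq hqN w) := by
  rw [pi1_apply, pi2_apply, lamB_resP_resP, h12 hqN]

theorem gram21 (u w : Lam N) :
    lamB (N * q * q) (pi2 N q u) (pi1 N q w) = (q : ℤ) * lamB N u (Tq hqN w) := by
  rw [pi1_apply, pi2_apply, lamB_resP_resP, h21 hqN]

theorem gram22 (u w : Lam N) :
    lamB (N * q * q) (pi2 N q u) (pi2 N q w) = ((q : ℤ) * (q + 1)) * lamB N u w := by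
  rw [pi2_apply, pi2_apply, lamB_resP_resP, h22 hqN]
  ring

/-- `cores ∘ cores2 ∘ res_δ ∘ res_δ = T_q² − (q + 1)` on `Λ_N` -/
theorem coresP_cores2P_pi3 (w : Lam N) :
    coresP ℤ hqN (cores2P N q ℤ (pi3 N q w)) = Tq hqN (Tq hqN w) - (q + 1) • w := by
  apply Subtype.ext
  rw [coresP_coe, cores2P_coe, pi3_apply, resDP_coe, resDP_coe, cores_cores2_resD_resD hqN]
  show _ = ((heckeP ℤ hqN (heckeP ℤ hqN w) : Lam N) : Additive (Gamma0 N) →+ ℤ) - (q + 1) • w.1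
  rw [heckeP_coe, heckeP_coe]

theorem gram13 (u w : Lam N) :
    lamB (N * q * q) (pi1 N q u) (pi3 N q w)
      = lamB N u (Tq hqN (Tq hqN w)) - ((q : ℤ) + 1) * lamB N u w := by
  rw [pi1_apply, lamB_resP_cores2P, lamB_resP_coresP hqN, coresP_cores2P_pi3 hqN, map_sub,
    lam_nsmul]
  push_cast
  ring

/-! ### `W_{q²}` -/

theorem gram_w2 (u w : Lam N) :
    lamB (N * q * q) (pi3 N q u) (pi3 N q w) = lamB (N * q * q) (pi1 N q u) (pi1 N q w) ∧
    lamB (N * q * q) (pi2 N q u) (pi3 N q w) = lamB (N * q * q) (pi2 N q u) (pi1 N q w) ∧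
    lamB (N * q * q) (pi3 N q u) (pi2 N q w) = lamB (N * q * q) (pi1 N q u) (pi2 N q w) := by
  obtain ⟨⟨b, d⟩, hbd⟩ := exists_bezout_sq hqN
  have hbd' : (q : ℤ) ^ 2 * d - N * b = 1 := hbd
  have e1 : ∀ x : Lam N, w2P N q b d hbd' ℤ (pi1 N q x) = pi3 N q x := fun x =>
    Subtype.ext (by
      rw [w2P_coe, pi1_apply, pi3_apply, resP_coe, resP_coe, resDP_coe, resDP_coe]
      exact w2Op_res_res N q b d hbd' x.1)
  have e2 : ∀ x : Lam N, w2P N q b d hbd' ℤ (pi2 N q x) = pi2 N q x := fun x =>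
    Subtype.ext (by
      rw [w2P_coe, pi2_apply, resP_coe, resDP_coe]
      exact w2Op_res_resD N q b d hbd' x.1)
  refine ⟨?_, ?_, ?_⟩
  · rw [← e1 u, ← e1 w, lamB_w2P_w2P]
  · rw [← e1 w, ← e2 u, lamB_w2P_w2P, e2 u]
  · rw [← e1 u, ← e2 w, lamB_w2P_w2P, e2 w]

theorem gram33 (u w : Lam N) :
    lamB (N * q * q) (pi3 N q u) (pi3 N q w) = ((q : ℤ) * (q + 1)) * lamB N u w := by
  rw [(gram_w2 hqN u w).1, gram11 hqN]

theorem gram23 (u w : Lam N) :
    lamB (N * q * q) (pi2 N q u) (pi3 N q w) = (q : ℤ) * lamB N u (Tq hqN w) := by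
  rw [(gram_w2 hqN u w).2.1, gram21 hqN]

theorem gram32 (u w : Lam N) :
    lamB (N * q * q) (pi3 N q u) (pi2 N q w) = (q : ℤ) * lamB N u (Tq hqN w) := by
  rw [(gram_w2 hqN u w).2.2, gram12 hqN]

theorem lamB_Tq (x y : Lam N) : lamB N (Tq hqN x) y = lamB N x (Tq hqN y) :=
  lamB_heckeP hqN x y

theorem gram31 (u w : Lam N) :
    lamB (N * q * q) (pi3 N q u) (pi1 N q w)
      = lamB N u (Tq hqN (Tq hqN w)) - ((q : ℤ) + 1) * lamB N u w := by
  rw [lamB_skew (N * q * q), gram13 hqN, lamB_skew N w (Tq hqN (Tq hqN u)), lamB_Tq, lamB_Tq,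
    lamB_skew N w u]
  ring

/-! ### the adjointness matrix -/

/-- **the adjointness matrix of `α₃` is `A3op q T_q`** : the binder `hadj` of
`GE9/Eta/Three.card_congMod_growth_three` for `B = lamB N`, `B' = lamB (N q q)`, `α = alpha3`,
`T = Tq hqN`. -/
theorem hadj3 (u w : Fin 3 → Lam N) :
    lamB (N * q * q) (alpha3 N q u) (alpha3 N q w)
      = ∑ m, ∑ n, lamB N (u m) (A3op (q : ℤ) (Tq hqN) m n (w n)) := by
  rw [alpha3_apply, alpha3_apply]
  simp only [map_add, LinearMap.add_apply, gram11 hqN, gram12 hqN, gram13 hqN, gram21 hqN,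
    gram22 hqN, gram23 hqN, gram31 hqN, gram32 hqN, gram33 hqN, Fin.sum_univ_three, A3op,
    Matrix.cons_val_zero, Matrix.cons_val_one, Matrix.cons_val_two, Matrix.head_cons,
    Matrix.tail_cons, LinearMap.smul_apply, LinearMap.sub_apply, LinearMap.id_apply,
    Module.End.mul_apply, map_smul, map_sub, smul_eq_mul]
  ring

/-- plug-test of `hadj3` against helper2's `pairing_alpha_three` : on `T_q`-eigenvectors `b j`
(eigenvalue `a`) the raised family has Gram matrix `cThree q a • gram`. -/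
theorem pairing_alpha3 {d : ℕ} (b : Fin d → Lam N) (a : ℤ) (hT : ∀ j, Tq hqN (b j) = a • b j)
    (i j : Fin d) :
    lamB (N * q * q) (raise3 (alpha3 N q) (q : ℤ) a b i) (raise3 (alpha3 N q) (q : ℤ) a b j)
      = cThree (q : ℤ) a * lamB N (b i) (b j) :=
  pairing_alpha_three (lamB N) (lamB (N * q * q)) (alpha3 N q) (A3op (q : ℤ) (Tq hqN))
    (hadj3 hqN) b (q : ℤ) a (fun m n j => A3op_apply_of_eigen (q : ℤ) (Tq hqN) (hT j) m n) i j

end Gram

end Fermat.Agent.GE9.Eta.Adj3
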